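import Mathlib
import Fermat.Agent.LT.H556.A0

/-!
# Row LT, tower T7, leaf `CellCoordC290` (registry 2230, helper360): local facts

OFF-MAIN.  Facts at one place: the closure `𝔫 𝒪_v` of an ideal is an ideal of `𝒪_v` contained in
the maximal ideal when `v ∣ 𝔫`; the norm of `K_v`; unitary matrices at the infinite places.
-/

set_option autoImplicit false

open IsDedekindDomain NumberField
open Fermat.Agent.LT.H556.A0

noncomputable section

namespace Fermat.Agent.LT.T7.Rigid.H360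

variable {K : Type} [Field K] [NumberField K]

/-! ## The norm of `K_v` -/

theorem norm_le_one_iff360 (v : HeightOneSpectrum (𝓞 K)) (x : v.adicCompletion K) :
    ‖x‖ ≤ 1 ↔ x ∈ v.adicCompletionIntegers K := by
  rw [HeightOneSpectrum.mem_adicCompletionIntegers]
  exact Valued.toNormedField.norm_le_one_iff

theorem norm_lt_one_iff360 (v : HeightOneSpectrum (𝓞 K)) (x : v.adicCompletion K) :
    ‖x‖ < 1 ↔ Valued.v x < 1 :=
  Valued.toNormedField.norm_lt_one_iff

theorem norm_add_le_max360 (v : HeightOneSpectrum (𝓞 K)) (x y : v.adicCompletion K) :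
    ‖x + y‖ ≤ max ‖x‖ ‖y‖ :=
  IsUltrametricDist.norm_add_le_max x y

theorem norm_sub_le_max360 (v : HeightOneSpectrum (𝓞 K)) (x y : v.adicCompletion K) :
    ‖x - y‖ ≤ max ‖x‖ ‖y‖ := by
  have h := norm_add_le_max360 v x (-y)
  rwa [norm_neg, ← sub_eq_add_neg] at h

/-- An element of `𝒪_v` with inverse in `𝒪_v` has norm one. -/
theorem norm_eq_one_of_mul_eq_one360 (v : HeightOneSpectrum (𝓞 K)) {a b : v.adicCompletion K}
    (ha : ‖a‖ ≤ 1) (hb : ‖b‖ ≤ 1) (hab : a * b = 1) : ‖a‖ = 1 := by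
  have h1 : ‖a‖ * ‖b‖ = 1 := by rw [← norm_mul, hab, norm_one]
  have ha0 : 0 ≤ ‖a‖ := norm_nonneg a
  have hb0 : 0 ≤ ‖b‖ := norm_nonneg b
  refine le_antisymm ha ?_
  by_contra hlt
  rw [not_le] at hlt
  have : ‖a‖ * ‖b‖ < 1 := by
    calc ‖a‖ * ‖b‖ ≤ ‖a‖ * 1 := mul_le_mul_of_nonneg_left hb ha0
      _ = ‖a‖ := mul_one _
      _ < 1 := hlt
  linarith

/-- `1 + t` has norm one when `‖t‖ < 1`. -/
theorem norm_eq_one_of_sub_one_lt360 (v : HeightOneSpectrum (𝓞 K)) {a : v.adicCompletion K}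
    (h : ‖a - 1‖ < 1) : ‖a‖ = 1 := by
  refine le_antisymm ?_ ?_
  · have h1 := norm_add_le_max360 v (a - 1) 1
    rw [sub_add_cancel, norm_one] at h1
    exact h1.trans (max_le h.le le_rfl)
  · have h1 := norm_sub_le_max360 v a (a - 1)
    rw [sub_sub_cancel, norm_one] at h1
    rcases le_max_iff.1 h1 with h2 | h2
    · exact h2
    · exact absurd h2 (not_le.2 h)

/-! ## The closure of an ideal -/

/-- The map `𝓞 K → K_v`. -/
abbrev toCompl360 (v : HeightOneSpectrum (𝓞 K)) (x : 𝓞 K) : v.adicCompletion K :=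
  algebraMap K (v.adicCompletion K) (algebraMap (𝓞 K) K x)

theorem valued_algebraMap360 (v : HeightOneSpectrum (𝓞 K)) (y : K) :
    Valued.v (algebraMap K (v.adicCompletion K) y) = v.valuation K y :=
  HeightOneSpectrum.valuedAdicCompletion_eq_valuation' v y

theorem valued_toCompl360 (v : HeightOneSpectrum (𝓞 K)) (x : 𝓞 K) :
    Valued.v (toCompl360 v x) = v.intValuation x := by
  rw [toCompl360, valued_algebraMap360, HeightOneSpectrum.valuation_of_algebraMap]

theorem toCompl360_mem_integers (v : HeightOneSpectrum (𝓞 K)) (x : 𝓞 K) :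
    toCompl360 v x ∈ v.adicCompletionIntegers K := by
  rw [HeightOneSpectrum.mem_adicCompletionIntegers, valued_toCompl360]
  exact v.intValuation_le_one x

/-- `𝓞 K` is dense in `𝒪_v`. -/
theorem integers_subset_closure360 (v : HeightOneSpectrum (𝓞 K)) :
    (v.adicCompletionIntegers K : Set (v.adicCompletion K))
      ⊆ closure (Set.range (toCompl360 v)) := by
  intro x hx
  rw [mem_closure_iff]
  intro U hU hxU
  have hO : IsOpen (v.adicCompletionIntegers K : Set (v.adicCompletion K)) :=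
    Valued.isOpen_valuationSubring _
  obtain ⟨k, hk⟩ := (HeightOneSpectrum.denseRange_algebraMap K v).exists_mem_open
    (hU.inter hO) ⟨x, hxU, hx⟩
  have hkU : algebraMap K (v.adicCompletion K) k ∈ U := hk.1
  have hk1 : v.valuation K k ≤ 1 := by
    rw [← valued_algebraMap360]
    exact (HeightOneSpectrum.mem_adicCompletionIntegers (𝓞 K) K v).1 hk.2
  obtain ⟨γ, hγ⟩ := (Valued.mem_nhds (R := v.adicCompletion K)).1 (hU.mem_nhds hkU)
  have hγ0 : MonoidWithZeroHom.ValueGroup₀.embedding γ.1 ≠ 0 := by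
    simp
  obtain ⟨a, ha⟩ := HeightOneSpectrum.exists_valuation_sub_lt_of_integer v hk1
    (Units.mk0 _ hγ0)
  refine ⟨toCompl360 v a, hγ ?_, a, rfl⟩
  show (Valued.v : Valuation (v.adicCompletion K) _).restrict
    (toCompl360 v a - algebraMap K (v.adicCompletion K) k) < γ.1
  rw [Valuation.restrict_lt_iff_lt_embedding]
  have e : toCompl360 v a - algebraMap K (v.adicCompletion K) k
      = algebraMap K (v.adicCompletion K) (algebraMap (𝓞 K) K a - k) := by
    rw [map_sub]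
  rw [e, valued_algebraMap360]
  exact ha

variable (𝔫 : Ideal (𝓞 K)) (v : HeightOneSpectrum (𝓞 K))

theorem idealClosure_eq360 :
    idealClosure 𝔫 v = closure (toCompl360 v '' (𝔫 : Set (𝓞 K))) := rfl

theorem idealClosure_subset360 :
    idealClosure 𝔫 v ⊆ (v.adicCompletionIntegers K : Set (v.adicCompletion K)) := by
  refine closure_minimal ?_ (Valued.isClosed_valuationSubring _)
  rintro _ ⟨x, -, rfl⟩
  exact toCompl360_mem_integers v x

theorem norm_le_one_of_mem_idealClosure360 {x : v.adicCompletion K}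
    (hx : x ∈ idealClosure 𝔫 v) : ‖x‖ ≤ 1 :=
  (norm_le_one_iff360 v x).2 (idealClosure_subset360 𝔫 v hx)

theorem add_mem_idealClosure360 {x y : v.adicCompletion K} (hx : x ∈ idealClosure 𝔫 v)
    (hy : y ∈ idealClosure 𝔫 v) : x + y ∈ idealClosure 𝔫 v := by
  refine map_mem_closure₂ continuous_add hx hy ?_
  rintro _ ⟨a, ha, rfl⟩ _ ⟨b, hb, rfl⟩
  exact ⟨a + b, 𝔫.add_mem ha hb, by simp⟩

theorem mul_mem_idealClosure360 {x y : v.adicCompletion K}
    (hx : x ∈ v.adicCompletionIntegers K) (hy : y ∈ idealClosure 𝔫 v) :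
    x * y ∈ idealClosure 𝔫 v := by
  refine map_mem_closure₂ continuous_mul (integers_subset_closure360 v hx) hy ?_
  rintro _ ⟨a, rfl⟩ _ ⟨b, hb, rfl⟩
  exact ⟨a * b, 𝔫.mul_mem_left a hb, by simp [toCompl360]⟩

theorem mul_mem_idealClosure360' {x y : v.adicCompletion K}
    (hx : x ∈ idealClosure 𝔫 v) (hy : y ∈ idealClosure 𝔫 v) :
    x * y ∈ idealClosure 𝔫 v :=
  mul_mem_idealClosure360 𝔫 v (idealClosure_subset360 𝔫 v hx) hy

/-- When `v ∣ 𝔫` the closure of `𝔫` lies in the maximal ideal. -/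
theorem norm_lt_one_of_mem_idealClosure360 (hv : v.asIdeal ∣ 𝔫) {x : v.adicCompletion K}
    (hx : x ∈ idealClosure 𝔫 v) : ‖x‖ < 1 := by
  have hcl : IsClosed {y : v.adicCompletion K | ‖y‖ < 1} := by
    have : {y : v.adicCompletion K | ‖y‖ < 1} = Metric.ball (0 : v.adicCompletion K) 1 := by
      ext y; simp [Metric.mem_ball, dist_zero_right]
    rw [this]
    exact IsUltrametricDist.isClosed_ball _ _
  have hsub : idealClosure 𝔫 v ⊆ {y : v.adicCompletion K | ‖y‖ < 1} := by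
    refine closure_minimal ?_ hcl
    rintro _ ⟨a, ha, rfl⟩
    show ‖toCompl360 v a‖ < 1
    rw [norm_lt_one_iff360, valued_toCompl360]
    exact (HeightOneSpectrum.intValuation_lt_one_iff_mem v a).2 (Ideal.dvd_iff_le.1 hv ha)
  exact hsub hx

/-! ## Unitary matrices -/

theorem unitary_row_one360 {U : Matrix (Fin 2) (Fin 2) ℂ} (h : U * U.conjTranspose = 1) :
    ‖U 1 0‖ ^ 2 + ‖U 1 1‖ ^ 2 = 1 := by
  have h11 := congrFun (congrFun h 1) 1
  rw [Matrix.mul_apply, Fin.sum_univ_two] at h11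
  simp only [Matrix.conjTranspose_apply, Matrix.one_apply_eq] at h11
  have e0 : U 1 0 * star (U 1 0) = ((‖U 1 0‖ ^ 2 : ℝ) : ℂ) := by
    rw [Complex.star_def, Complex.mul_conj, Complex.normSq_eq_norm_sq]
  have e1 : U 1 1 * star (U 1 1) = ((‖U 1 1‖ ^ 2 : ℝ) : ℂ) := by
    rw [Complex.star_def, Complex.mul_conj, Complex.normSq_eq_norm_sq]
  rw [e0, e1] at h11
  exact_mod_cast h11

theorem unitary_norm_det360 {U : Matrix (Fin 2) (Fin 2) ℂ} (h : U * U.conjTranspose = 1) :
    ‖U.det‖ = 1 := by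
  have hd := congrArg Matrix.det h
  rw [Matrix.det_mul, Matrix.det_conjTranspose, Matrix.det_one] at hd
  have e0 : U.det * star U.det = ((‖U.det‖ ^ 2 : ℝ) : ℂ) := by
    rw [Complex.star_def, Complex.mul_conj, Complex.normSq_eq_norm_sq]
  rw [e0] at hd
  have h2 : ‖U.det‖ ^ 2 = 1 := by exact_mod_cast hd
  have h0 : 0 ≤ ‖U.det‖ := norm_nonneg _
  nlinarith [sq_nonneg (‖U.det‖ - 1), sq_nonneg (‖U.det‖ + 1)]

end Fermat.Agent.LT.T7.Rigid.H360

end
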