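import Mathlib
import Fermat.Agent.LT.T1.Spec
import Fermat.Agent.LT.T7.H57.FoldSpec3
import Fermat.Agent.LT.T7.H290.CoreSpec
import Fermat.Agent.LT.T7.H360.CellLocal

/-!
# Row LT, tower T7, leaf `CellCoordC290` (registry 2230, helper360)

OFF-MAIN.  `cellCoordC360 K : H290.CellCoordC290 K` VERBATIM against
`LT/T7/H290/CoreSpec.lean` (origin/helper290@706aa9d8d, sha256 7937517f69ece6df).

On `ι(P) 𝒰(𝔪)`: the bottom row of `ι(x, y, z) κ` is `z · (bottom row of κ)`, the bottom row of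
`κ ∈ 𝒰(𝔪)` has local norm one at every place (unitary at the infinite places, primitive at the
finite places), `det (ι(x, y, z) κ) = y z² det κ` and `det κ` has local norm one everywhere.
-/

set_option autoImplicit false

open AutomorphicForm IsDedekindDomain NumberField

noncomputable section

namespace Fermat.Agent.LT.T7.Rigid.H360

open Fermat.Agent.LT.H556 Fermat.Agent.LT.H556.A0 Fermat.Agent.LT.T7 Fermat.Agent.LT.T7.Rigid
open Fermat.Agent.LT.T7.H57 Fermat.Agent.LT.T7.Rigid.H290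

variable {K : Type} [Field K] [NumberField K]

/-! ## Components -/

/-- The component at the infinite place `w`, in the completion. -/
def infProj360 (w : InfinitePlace K) : Adl K →+* w.Completion :=
  (Pi.evalRingHom (fun v : InfinitePlace K => v.Completion) w).comp
    (RingHom.fst (InfiniteAdeleRing K) (FiniteAdeleRing (𝓞 K) K))

theorem infProj360_apply (w : InfinitePlace K) (x : Adl K) : infProj360 w x = x.1 w := rfl

theorem finHom360_apply (v : HeightOneSpectrum (𝓞 K)) (x : Adl K) :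
    Fermat.Agent.LT.T5.finHom v x = x.2 v := rfl

theorem infHom360_apply (w : InfinitePlace K) (x : Adl K) :
    Fermat.Agent.LT.T5.infHom w x = InfinitePlace.Completion.extensionEmbedding w (x.1 w) := rfl

omit [NumberField K] in
theorem norm_extEmb360 (w : InfinitePlace K) (x : w.Completion) :
    ‖InfinitePlace.Completion.extensionEmbedding w x‖ = ‖x‖ :=
  (InfinitePlace.Completion.isometry_extensionEmbedding w).norm_map_of_map_zero (map_zero _) x

theorem norm_infHom360 (w : InfinitePlace K) (x : Adl K) :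
    ‖Fermat.Agent.LT.T5.infHom w x‖ = ‖x.1 w‖ := by
  rw [infHom360_apply, norm_extEmb360]

theorem inf_mul360 (w : InfinitePlace K) (a b : Adl K) : (a * b).1 w = a.1 w * b.1 w :=
  map_mul (infProj360 w) a b

theorem fin_mul360 (v : HeightOneSpectrum (𝓞 K)) (a b : Adl K) : (a * b).2 v = a.2 v * b.2 v :=
  map_mul (Fermat.Agent.LT.T5.finHom v) a b

theorem finComp_mul360 (v : HeightOneSpectrum (𝓞 K)) (a b : G K) :
    finComp v (a * b) = finComp v a * finComp v b := by
  rw [Fermat.Agent.LT.T5.finComp_eq_map, Fermat.Agent.LT.T5.finComp_eq_map,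
    Fermat.Agent.LT.T5.finComp_eq_map, Units.val_mul, Matrix.map_mul]

theorem finComp_one360 (v : HeightOneSpectrum (𝓞 K)) : finComp v (1 : G K) = 1 := by
  rw [Fermat.Agent.LT.T5.finComp_eq_map, Units.val_one,
    Matrix.map_one _ (map_zero _) (map_one _)]

theorem infComp_mul360 (w : InfinitePlace K) (a b : G K) :
    infComp w (a * b) = infComp w a * infComp w b := by
  rw [Fermat.Agent.LT.T5.infComp_eq_map, Fermat.Agent.LT.T5.infComp_eq_map,
    Fermat.Agent.LT.T5.infComp_eq_map, Units.val_mul, Matrix.map_mul]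

theorem infComp_one360 (w : InfinitePlace K) : infComp w (1 : G K) = 1 := by
  rw [Fermat.Agent.LT.T5.infComp_eq_map, Units.val_one,
    Matrix.map_one _ (map_zero _) (map_one _)]

theorem finComp_det360 (v : HeightOneSpectrum (𝓞 K)) (g : G K) :
    (Matrix.det (g : Matrix (Fin 2) (Fin 2) (Adl K))).2 v = (finComp v g).det := by
  rw [Fermat.Agent.LT.T5.finComp_eq_map, ← finHom360_apply, RingHom.map_det]
  rfl

theorem infComp_det360 (w : InfinitePlace K) (g : G K) :
    Fermat.Agent.LT.T5.infHom w (Matrix.det (g : Matrix (Fin 2) (Fin 2) (Adl K)))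
      = (infComp w g).det := by
  rw [Fermat.Agent.LT.T5.infComp_eq_map, RingHom.map_det]
  rfl

/-! ## The compact group at one place -/

section Cpt

variable {𝔪 : Ideal (𝓞 K)} {κ : G K}

theorem norm_one_entry_le360 (v : HeightOneSpectrum (𝓞 K)) (i j : Fin 2) :
    ‖(1 : Matrix (Fin 2) (Fin 2) (v.adicCompletion K)) i j‖ ≤ 1 := by
  by_cases h : i = j
  · subst h
    rw [Matrix.one_apply_eq, norm_one]
  · rw [Matrix.one_apply_ne h, norm_zero]
    exact zero_le_one

theorem cpt_fin_le360 (hκ : IsCpt290 𝔪 κ) (v : HeightOneSpectrum (𝓞 K)) (i j : Fin 2) :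
    ‖finComp v κ i j‖ ≤ 1 := by
  have h1 := norm_le_one_of_mem_idealClosure360 𝔪 v (hκ.1 v i j).1
  have e : finComp v κ i j
      = (finComp v κ - 1) i j + (1 : Matrix (Fin 2) (Fin 2) (v.adicCompletion K)) i j := by
    rw [Matrix.sub_apply, sub_add_cancel]
  rw [e]
  exact (norm_add_le_max360 v _ _).trans (max_le h1 (norm_one_entry_le360 v i j))

theorem cpt_fin_inv_le360 (hκ : IsCpt290 𝔪 κ) (v : HeightOneSpectrum (𝓞 K)) (i j : Fin 2) :
    ‖finComp v κ⁻¹ i j‖ ≤ 1 := by
  have h1 := norm_le_one_of_mem_idealClosure360 𝔪 v (hκ.1 v i j).2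
  have e : finComp v κ⁻¹ i j
      = (finComp v κ⁻¹ - 1) i j + (1 : Matrix (Fin 2) (Fin 2) (v.adicCompletion K)) i j := by
    rw [Matrix.sub_apply, sub_add_cancel]
  rw [e]
  exact (norm_add_le_max360 v _ _).trans (max_le h1 (norm_one_entry_le360 v i j))

theorem norm_det_le360 (v : HeightOneSpectrum (𝓞 K))
    {M : Matrix (Fin 2) (Fin 2) (v.adicCompletion K)} (hM : ∀ i j, ‖M i j‖ ≤ 1) :
    ‖M.det‖ ≤ 1 := by
  rw [Matrix.det_fin_two]
  refine (norm_sub_le_max360 v _ _).trans (max_le ?_ ?_)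
  · rw [norm_mul]
    exact mul_le_one₀ (hM 0 0) (norm_nonneg _) (hM 1 1)
  · rw [norm_mul]
    exact mul_le_one₀ (hM 0 1) (norm_nonneg _) (hM 1 0)

theorem cpt_fin_det360 (hκ : IsCpt290 𝔪 κ) (v : HeightOneSpectrum (𝓞 K)) :
    ‖(finComp v κ).det‖ = 1 := by
  refine norm_eq_one_of_mul_eq_one360 v (b := (finComp v κ⁻¹).det)
    (norm_det_le360 v (cpt_fin_le360 hκ v)) (norm_det_le360 v (cpt_fin_inv_le360 hκ v)) ?_
  rw [← Matrix.det_mul, ← finComp_mul360, mul_inv_cancel, finComp_one360, Matrix.det_one]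

/-- The bottom row of `κ_v` is primitive. -/
theorem cpt_fin_row360 (hκ : IsCpt290 𝔪 κ) (v : HeightOneSpectrum (𝓞 K)) :
    max ‖finComp v κ 1 0‖ ‖finComp v κ 1 1‖ = 1 := by
  refine le_antisymm (max_le (cpt_fin_le360 hκ v 1 0) (cpt_fin_le360 hκ v 1 1)) ?_
  have hd := cpt_fin_det360 hκ v
  rw [Matrix.det_fin_two] at hd
  have h1 := norm_sub_le_max360 v (finComp v κ 0 0 * finComp v κ 1 1)
    (finComp v κ 0 1 * finComp v κ 1 0)
  rw [hd, norm_mul, norm_mul] at h1
  have ha : ‖finComp v κ 0 0‖ * ‖finComp v κ 1 1‖ ≤ ‖finComp v κ 1 1‖ :=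
    mul_le_of_le_one_left (norm_nonneg _) (cpt_fin_le360 hκ v 0 0)
  have hb : ‖finComp v κ 0 1‖ * ‖finComp v κ 1 0‖ ≤ ‖finComp v κ 1 0‖ :=
    mul_le_of_le_one_left (norm_nonneg _) (cpt_fin_le360 hκ v 0 1)
  rcases le_max_iff.1 h1 with h2 | h2
  · exact le_max_of_le_right (h2.trans ha)
  · exact le_max_of_le_left (h2.trans hb)

theorem cpt_inf_row360 (hκ : IsCpt290 𝔪 κ) (w : InfinitePlace K) :
    ‖((κ : Matrix (Fin 2) (Fin 2) (Adl K)) 1 0).1 w‖ ^ 2
      + ‖((κ : Matrix (Fin 2) (Fin 2) (Adl K)) 1 1).1 w‖ ^ 2 = 1 := by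
  have h := unitary_row_one360 (hκ.2 w).1
  have e : ∀ j : Fin 2, ‖infComp w κ 1 j‖ = ‖((κ : Matrix (Fin 2) (Fin 2) (Adl K)) 1 j).1 w‖ :=
    fun j => norm_extEmb360 w _
  rwa [e 0, e 1] at h

theorem cpt_inf_det360 (hκ : IsCpt290 𝔪 κ) (w : InfinitePlace K) :
    ‖(Matrix.det (κ : Matrix (Fin 2) (Fin 2) (Adl K))).1 w‖ = 1 := by
  rw [← norm_infHom360, infComp_det360]
  exact unitary_norm_det360 (hκ.2 w).1

/-- The module of the determinant of an element of `𝒰(𝔪)` is one. -/
theorem cpt_adNorm_det360 (hκ : IsCpt290 𝔪 κ) :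
    Fermat.Agent.LT.T5.adNorm (Matrix.det (κ : Matrix (Fin 2) (Fin 2) (Adl K))) = 1 := by
  unfold Fermat.Agent.LT.T5.adNorm
  have hinf : ∀ w : InfinitePlace K,
      ‖(Matrix.det (κ : Matrix (Fin 2) (Fin 2) (Adl K))).1 w‖ ^ w.mult = 1 := fun w => by
    rw [cpt_inf_det360 hκ w, one_pow]
  have hfin : ∀ v : HeightOneSpectrum (𝓞 K),
      ‖(Matrix.det (κ : Matrix (Fin 2) (Fin 2) (Adl K))).2 v‖ = 1 := fun v => by
    rw [finComp_det360, cpt_fin_det360 hκ v]
  simp only [hinf, hfin, Finset.prod_const_one, finprod_one, mul_one]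

end Cpt

/-! ## The Borel coordinates -/

theorem iota_val360 (p : Adl K × (Adl K)ˣ × (Adl K)ˣ) :
    ((iota57 K p : G K) : Matrix (Fin 2) (Fin 2) (Adl K))
      = !![(p.2.1 : Adl K) * (p.2.2 : Adl K), p.1 * (p.2.2 : Adl K); 0, (p.2.2 : Adl K)] := by
  unfold iota57
  rw [Units.val_mul, Units.val_mul]
  show (!![1, p.1; 0, 1] : Matrix (Fin 2) (Fin 2) (Adl K)) * !![(p.2.1 : Adl K), 0; 0, 1]
      * !![(p.2.2 : Adl K), 0; 0, (p.2.2 : Adl K)] = _
  ext i j
  fin_cases i <;> fin_cases j <;> simp [Matrix.mul_apply, Fin.sum_univ_two]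

theorem botRow_iota_mul360 (p : Adl K × (Adl K)ˣ × (Adl K)ˣ) (κ : G K) (j : Fin 2) :
    botRow290 (iota57 K p * κ) j
      = (p.2.2 : Adl K) * (κ : Matrix (Fin 2) (Fin 2) (Adl K)) 1 j := by
  unfold botRow290
  rw [Units.val_mul, Matrix.mul_apply, Fin.sum_univ_two, iota_val360]
  simp

theorem det_iota_mul360 (p : Adl K × (Adl K)ˣ × (Adl K)ˣ) (κ : G K) :
    Matrix.det ((iota57 K p * κ : G K) : Matrix (Fin 2) (Fin 2) (Adl K))
      = ((p.2.1 * p.2.2 * p.2.2 * Matrix.GeneralLinearGroup.det κ : (Adl K)ˣ) : Adl K) := by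
  rw [Units.val_mul, Matrix.det_mul, iota_val360, Matrix.det_fin_two_of, Units.val_mul,
    Units.val_mul, Units.val_mul, Matrix.GeneralLinearGroup.val_det_apply]
  ring

/-- The row norm of the bottom row of `ι(p) κ` is `|z|`. -/
theorem rowNorm_iota_mul360 {𝔪 : Ideal (𝓞 K)} (p : Adl K × (Adl K)ˣ × (Adl K)ˣ) {κ : G K}
    (hκ : IsCpt290 𝔪 κ) :
    rowNorm (botRow290 (iota57 K p * κ)) = nrm57 K p.2.2 := by
  unfold rowNorm nrm57 Fermat.Agent.LT.T5.adNorm
  have hinf : ∀ w : InfinitePlace K,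
      (‖(botRow290 (iota57 K p * κ) 0).1 w‖ ^ 2 + ‖(botRow290 (iota57 K p * κ) 1).1 w‖ ^ 2)
          ^ ((w.mult : ℝ) / 2)
        = ‖((p.2.2 : (Adl K)ˣ) : Adl K).1 w‖ ^ w.mult := by
    intro w
    rw [botRow_iota_mul360, botRow_iota_mul360, inf_mul360, inf_mul360, norm_mul, norm_mul,
      mul_pow, mul_pow, ← mul_add, cpt_inf_row360 hκ w, mul_one, ← Real.rpow_two,
      ← Real.rpow_mul (norm_nonneg _)]
    have e : (2 : ℝ) * ((w.mult : ℝ) / 2) = (w.mult : ℝ) := by ring
    rw [e, Real.rpow_natCast]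
  have hfin : ∀ v : HeightOneSpectrum (𝓞 K),
      max ‖(botRow290 (iota57 K p * κ) 0).2 v‖ ‖(botRow290 (iota57 K p * κ) 1).2 v‖
        = ‖((p.2.2 : (Adl K)ˣ) : Adl K).2 v‖ := by
    intro v
    rw [botRow_iota_mul360, botRow_iota_mul360, fin_mul360, fin_mul360, norm_mul, norm_mul,
      ← mul_max_of_nonneg _ _ (norm_nonneg _)]
    have h := cpt_fin_row360 hκ v
    have e : ∀ j : Fin 2, finComp v κ 1 j = ((κ : Matrix (Fin 2) (Fin 2) (Adl K)) 1 j).2 v :=
      fun _ => rfl
    rw [e 0, e 1] at h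
    rw [h, mul_one]
  simp only [hinf, hfin]

/-! ## The leaf -/

variable (K)

/-- **LEAF CELL-COORD** (`H290.CellCoordC290`, VERBATIM). -/
theorem cellCoordC360 : CellCoordC290 K := by
  intro _ hT1 𝔪 _
  obtain ⟨hpos, hmul, -, -⟩ := hT1.adNorm
  have hpos' : ∀ x : (Adl K)ˣ, 0 < nrm57 K x := fun x => hpos x
  have hmul' : ∀ x y : (Adl K)ˣ, nrm57 K (x * y) = nrm57 K x * nrm57 K y :=
    fun x y => hmul x y
  refine ⟨?_, ?_⟩
  · intro p κ hκ
    have hrow := rowNorm_iota_mul360 p hκ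
    have hdet : Fermat.Agent.LT.T5.adNorm
        (Matrix.det ((iota57 K p * κ : G K) : Matrix (Fin 2) (Fin 2) (Adl K)))
          = nrm57 K p.2.1 * nrm57 K p.2.2 ^ 2 := by
      have hκd : nrm57 K (Matrix.GeneralLinearGroup.det κ) = 1 := by
        unfold nrm57
        rw [Matrix.GeneralLinearGroup.val_det_apply]
        exact cpt_adNorm_det360 hκ
      rw [det_iota_mul360]
      show nrm57 K (p.2.1 * p.2.2 * p.2.2 * Matrix.GeneralLinearGroup.det κ) = _
      rw [hmul', hmul', hmul', hκd]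
      ring
    have hz := hpos' p.2.2
    have hz2 : 0 < nrm57 K p.2.2 ^ 2 := pow_pos hz 2
    refine ⟨?_, ?_, hdet⟩
    · intro Y _
      constructor
      · rintro ⟨h, -⟩
        rw [hrow, hdet, mul_comm] at h
        exact le_of_mul_le_mul_right h hz2
      · intro hY
        refine ⟨?_, ?_⟩
        · rw [hrow, hdet, mul_comm]
          exact mul_le_mul_of_nonneg_right hY hz2.le
        · intro v hv
          have h10 := (hκ.1 v 1 0).1
          have h11 := (hκ.1 v 1 1).1
          rw [Matrix.sub_apply, Matrix.one_apply_ne (by decide : (1 : Fin 2) ≠ 0),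
            sub_zero] at h10
          rw [Matrix.sub_apply, Matrix.one_apply_eq] at h11
          have hn11 : ‖finComp v κ 1 1‖ = 1 :=
            norm_eq_one_of_sub_one_lt360 v (norm_lt_one_of_mem_idealClosure360 𝔪 v hv h11)
          have hne : finComp v κ 1 1 ≠ 0 := by
            intro h0
            rw [h0, norm_zero] at hn11
            exact zero_ne_one hn11
          have hinv : (finComp v κ 1 1)⁻¹ ∈ v.adicCompletionIntegers K := by
            rw [← norm_le_one_iff360, norm_inv, hn11, inv_one]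
          refine ⟨(finComp v κ 1 1)⁻¹ * finComp v κ 1 0,
            mul_mem_idealClosure360 𝔪 v hinv h10, ?_⟩
          rw [botRow_iota_mul360, botRow_iota_mul360, fin_mul360, fin_mul360]
          show _ * finComp v κ 1 0 = _ * (_ * finComp v κ 1 1)
          field_simp
    · unfold hgt290
      rw [hrow, hdet]
      field_simp
  · intro κ κ' hκ hκ'
    refine ⟨?_, ?_⟩
    · intro v i j
      have key : ∀ A B : Matrix (Fin 2) (Fin 2) (v.adicCompletion K),
          (∀ i j, (A - 1) i j ∈ idealClosure 𝔪 v) → (∀ i j, (B - 1) i j ∈ idealClosure 𝔪 v) →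
          ∀ i j, (A * B - 1) i j ∈ idealClosure 𝔪 v := by
        intro A B hA hB i j
        have e : A * B - 1 = (A - 1) * (B - 1) + (A - 1) + (B - 1) := by
          noncomm_ring
        rw [e, Matrix.add_apply, Matrix.add_apply, Matrix.mul_apply, Fin.sum_univ_two]
        exact add_mem_idealClosure360 𝔪 v
          (add_mem_idealClosure360 𝔪 v
            (add_mem_idealClosure360 𝔪 v
              (mul_mem_idealClosure360' 𝔪 v (hA i 0) (hB 0 j))
              (mul_mem_idealClosure360' 𝔪 v (hA i 1) (hB 1 j)))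
            (hA i j)) (hB i j)
      refine ⟨?_, ?_⟩
      · rw [finComp_mul360]
        exact key _ _ (fun i j => (hκ.1 v i j).1) (fun i j => (hκ'.1 v i j).2) i j
      · rw [mul_inv_rev, inv_inv, finComp_mul360]
        exact key _ _ (fun i j => (hκ'.1 v i j).1) (fun i j => (hκ.1 v i j).2) i j
    · intro w
      obtain ⟨hU, hUd⟩ := hκ.2 w
      obtain ⟨hU', hUd'⟩ := hκ'.2 w
      have hVU : infComp w κ'⁻¹ * infComp w κ' = 1 := by
        rw [← infComp_mul360, inv_mul_cancel, infComp_one360]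
      have hV : infComp w κ'⁻¹ = (infComp w κ').conjTranspose := by
        calc infComp w κ'⁻¹
            = infComp w κ'⁻¹ * (infComp w κ' * (infComp w κ').conjTranspose) := by
              rw [hU', mul_one]
          _ = (infComp w κ'⁻¹ * infComp w κ') * (infComp w κ').conjTranspose := by
              rw [mul_assoc]
          _ = (infComp w κ').conjTranspose := by rw [hVU, one_mul]
      have hU'' : (infComp w κ').conjTranspose * infComp w κ' = 1 :=
        mul_eq_one_comm.1 hU'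
      refine ⟨?_, ?_⟩
      · rw [infComp_mul360, hV, Matrix.conjTranspose_mul, Matrix.conjTranspose_conjTranspose,
          mul_assoc, ← mul_assoc (infComp w κ').conjTranspose, hU'', one_mul, hU]
      · intro hw
        have hdV : (infComp w κ'⁻¹).det = 1 := by
          have h := congrArg Matrix.det hVU
          rw [Matrix.det_mul, hUd' hw, mul_one, Matrix.det_one] at h
          exact h
        rw [infComp_mul360, Matrix.det_mul, hUd hw, hdV, mul_one]

end Fermat.Agent.LT.T7.Rigid.H360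

end
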